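import Mathlib
import Fermat.Agent.MU.Lib.RR.RRI
import Fermat.Agent.MU.Lib.RR.Hurwitz.Norm

section MergeWrap_Lib_RR_Hurwitz_Count -- from Lib/RR/Hurwitz/Count.lean

set_option autoImplicit false
set_option linter.style.haveILetI false
set_option linter.unusedSectionVars false

/-!
# Riemann-Hurwitz by lattices, part 2: counting with a reduced basis

From `IsReducedBasis h x u d` (fields `linInd`, `mem`, `repr`) and Riemann-Roch, first form
(`riemann_roch_H1`, `exists_idx_eq_zero` of `Lib/RR/RRI.lean`):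

* `ℓ(m Doo) = ∑_i (m + 1 - d_i)`: the family `x^k u_i` (`k + d_i ≤ m`) is a `K`-basis of `L(m Doo)`
  (independent by `Fermat.Agent.RR.linearIndependent_pow_mul`, spanning by `repr`,
  in `L(m Doo)` by `mem` and `Fermat.Agent.RR.pow_mul_mem`-style estimates, `finrank_span_eq_card`).
* comparing with `ℓ(m Doo) = m deg Doo + 1 - g` for two large `m`: `deg Doo = n`, `∑ d_i = g + n - 1`.
-/

noncomputable section

open AlgebraicCurve IntermediateField Polynomial

namespace Fermat.Agent.RRHur

open Fermat.Agent.RR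

variable {K F : Type*} [Field K] [Field F] [Algebra K F]

/-- monotonicity of multiples of an effective divisor. -/
theorem nsmul_divisor_le_nsmul {D : Divisor K F} (hD : 0 ≤ D) {a b : ℕ} (hab : a ≤ b) :
    a • D ≤ b • D := by
  rw [Finsupp.le_def]
  intro v
  rw [Finsupp.smul_apply, Finsupp.smul_apply, nsmul_eq_mul, nsmul_eq_mul]
  have h0 : (0 : ℤ) ≤ D v := by
    have := Finsupp.le_def.mp hD v
    simpa using this
  have : (a : ℤ) ≤ b := by exact_mod_cast hab
  nlinarith

/-- `ℓ(m Doo) = ∑_i (m + 1 - d_i)` (truncated subtraction). -/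
theorem IsReducedBasis.ell_nsmul_poleDiv {h : IsRRField K F} {x : F} (hx : Transcendental K x)
    {n : ℕ} {u : Fin n → F} {d : Fin n → ℕ} (hb : IsReducedBasis h x u d) (m : ℕ) :
    ell (m • poleDiv h x) = ∑ i, (m + 1 - d i) := by
  classical
  let v : (Σ i : Fin n, Fin (m + 1 - d i)) → F := fun p => x ^ (p.2 : ℕ) * u p.1
  have hli0 := linearIndependent_pow_mul hx u hb.linInd
  have hli : LinearIndependent K v :=
    hli0.comp (fun p : (Σ i : Fin n, Fin (m + 1 - d i)) => ((p.2 : ℕ), p.1)) (by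
      rintro ⟨i, k⟩ ⟨i', k'⟩ hpq
      simp only [Prod.mk.injEq] at hpq
      obtain ⟨hk, rfl⟩ := hpq
      have : k = k' := Fin.ext hk
      rw [this])
  have hspan : Submodule.span K (Set.range v) = riemannRochSpace (m • poleDiv h x) := by
    apply le_antisymm
    · rw [Submodule.span_le]
      rintro _ ⟨⟨i, k⟩, rfl⟩
      have hk : (k : ℕ) + d i ≤ m := by
        have := k.2
        omega
      have h1 := pow_mul_mem h x (hb.mem i) (le_refl (k : ℕ))
      refine riemannRochSpace_mono ?_ h1
      rw [← add_smul]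
      exact nsmul_divisor_le_nsmul (poleDiv_nonneg h x) hk
    · intro f hf
      obtain ⟨a, ha, rfl⟩ := hb.repr m f hf
      refine Submodule.sum_mem _ fun i _ => ?_
      by_cases hai : a i = 0
      · rw [hai, map_zero, zero_mul]
        exact Submodule.zero_mem _
      rw [Polynomial.aeval_eq_sum_range, Finset.sum_mul]
      refine Submodule.sum_mem _ fun k hk => ?_
      rw [Finset.mem_range] at hk
      have hkd : k + d i ≤ m := by
        have := ha i hai
        omega
      rw [smul_mul_assoc]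
      exact Submodule.smul_mem _ _ (Submodule.subset_span ⟨⟨i, ⟨k, by omega⟩⟩, rfl⟩)
  rw [ell_def, ← hspan, finrank_span_eq_card hli, Fintype.card_sigma]
  simp

/-- auxiliary: for a reduced basis and `m` large,
`n (m + 1) - ∑ d_i = m deg Doo + 1 - g`. -/
theorem IsReducedBasis.count_large {h : IsRRField K F} {x : F} (hx : Transcendental K x)
    {n : ℕ} {u : Fin n → F} {d : Fin n → ℕ} (hb : IsReducedBasis h x u d) :
    ∃ M : ℕ, ∀ m : ℕ, M ≤ m →
      (n : ℤ) * (m + 1) - ∑ i, (d i : ℤ) =
        m * Divisor.degree (poleDiv h x) + 1 - (genusFF K F : ℤ) := by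
  obtain ⟨c, hc⟩ := exists_idx_eq_zero (K := K) (F := F) h
  have hpos := degree_poleDiv_pos h hx
  refine ⟨(∑ i, d i) + c.toNat, fun m hm => ?_⟩
  have h1 := hb.ell_nsmul_poleDiv hx m
  have h2 := riemann_roch_H1 h (m • poleDiv h x)
  have hdeg : Divisor.degree (m • poleDiv h x) = m * Divisor.degree (poleDiv h x) := by
    rw [map_nsmul, nsmul_eq_mul]
  have hcm : c ≤ Divisor.degree (m • poleDiv h x) := by
    rw [hdeg]
    have h3 : c ≤ (c.toNat : ℤ) := Int.self_le_toNat c
    have h4 : (c.toNat : ℤ) ≤ m := by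
      have : c.toNat ≤ m := by omega
      exact_mod_cast this
    have h5 : (0 : ℤ) ≤ m := Int.natCast_nonneg m
    nlinarith
  rw [hc _ hcm, hdeg, h1] at h2
  have hle : ∀ i, d i ≤ m + 1 := by
    intro i
    have : d i ≤ ∑ j, d j := Finset.single_le_sum (fun j _ => Nat.zero_le (d j)) (Finset.mem_univ i)
    omega
  have h3 : ((∑ i, (m + 1 - d i) : ℕ) : ℤ) = (n : ℤ) * (m + 1) - ∑ i, (d i : ℤ) := by
    rw [Nat.cast_sum]
    rw [Finset.sum_congr rfl fun i _ => Nat.cast_sub (hle i)]
    rw [Finset.sum_sub_distrib]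
    simp
  rw [h3] at h2
  push_cast at h2
  linarith

/-- the pole divisor of `x` has degree `[F : K(x)]` (from Riemann-Roch, no separability). -/
theorem degree_poleDiv_eq_finrank (h : IsRRField K F) {x : F} (hx : Transcendental K x)
    [FiniteDimensional K⟮x⟯ F] :
    Divisor.degree (poleDiv h x) = (Module.finrank K⟮x⟯ F : ℤ) := by
  obtain ⟨u, d, hb⟩ := exists_isReducedBasis h hx
  obtain ⟨M, hM⟩ := hb.count_large hx
  have k1 := hM M le_rfl
  have k2 := hM (M + 1) (by omega)
  push_cast at k1 k2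
  linarith

/-- `∑ d_i = g + n - 1`. -/
theorem IsReducedBasis.sum_eq {h : IsRRField K F} {x : F} (hx : Transcendental K x)
    [FiniteDimensional K⟮x⟯ F]
    {n : ℕ} {u : Fin n → F} {d : Fin n → ℕ} (hb : IsReducedBasis h x u d) :
    ∑ i, (d i : ℤ) = (genusFF K F : ℤ) + (Module.finrank K⟮x⟯ F : ℤ) - 1 := by
  obtain ⟨M, hM⟩ := hb.count_large hx
  have k1 := hM M le_rfl
  have hdeg := degree_poleDiv_eq_finrank h hx
  have hn : (n : ℤ) = (Module.finrank K⟮x⟯ F : ℤ) := by
    exact_mod_cast hb.card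
  rw [hdeg, hn] at k1
  linarith

end Fermat.Agent.RRHur
end
end MergeWrap_Lib_RR_Hurwitz_Count
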