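import Mathlib
import Fermat.Agent.MU.Lib.RR.RRI
import Fermat.Agent.MU.Lib.RR.Hurwitz.Norm
import Fermat.Agent.MU.Lib.RR.Hurwitz.Count
import Fermat.Agent.Lib.RR.Hurwitz.LocalTrace

section MergeWrap_Lib_RR_Hurwitz_LowerCore -- from Lib/RR/Hurwitz/LowerCore.lean

set_option autoImplicit false
set_option linter.style.haveILetI false
set_option linter.unusedSectionVars false

/-!
# Riemann-Hurwitz by lattices, part 3a (core): the lower bound from the local trace lemma

The proof of `hurwitz_lower` with the local trace lemma (`LT1` of `LocalTrace.lean`, already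
transported to the trace of `F / K(x)`) and the polynomial criterion taken as hypotheses.

For `f ∈ L(R)` and a reduced basis `u_i, d_i` the trace `Tr(u_i f)` is a polynomial in `x` of degree
`≤ d_i`; `f ↦ (Tr(u_i f))_i` is injective; hence `ℓ(R) ≤ ∑ (d_i + 1) = g + 2 n - 1`, and Riemann's
inequality `ℓ(R) ≥ deg R + 1 - g` gives `deg R ≤ 2 g - 2 + 2 n`.
-/

noncomputable section

open AlgebraicCurve IntermediateField Polynomial

namespace Fermat.Agent.RRHur

open Fermat.Agent.RR

variable {K F : Type*} [Field K] [Field F] [Algebra K F]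

/-- the statement of the local trace lemma `LT1` for the parameter `t` and the trace to `K(x)`. -/
def LowerLT1 (x t : F) : Prop :=
  ∀ f : F, (∀ P : Place K F, 0 < P.ord t → 1 - P.ord t ≤ P.ord f) →
    ∀ P : Place K F, 0 < P.ord t → 0 ≤ P.ord (algebraMap K⟮x⟯ F (Algebra.trace K⟮x⟯ F f))

/-- the statement of the polynomial criterion: an element of `K(x)` without poles outside the
poles of `x` is a polynomial in `x`. -/
def LowerPoly (x : F) : Prop :=
  ∀ a : K⟮x⟯, (∀ Q : Place K F, 0 ≤ Q.ord x → 0 ≤ Q.ord (algebraMap K⟮x⟯ F a)) →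
    (a : F) ∈ Algebra.adjoin K {x}

section Ord

theorem lower_ord_nonneg_of_sub_const (v : Place K F) {x : F} (c : K)
    (hv : 0 ≤ v.ord (x - algebraMap K F c)) : 0 ≤ v.ord x := by
  rw [← adicValuation_le_one_iff' v] at hv ⊢
  have : x = (x - algebraMap K F c) + algebraMap K F c := by ring
  rw [this]
  exact (Valuation.map_add _ _ _).trans (max_le hv (v.adicValuation_algebraMap_le_one c))

theorem lower_ord_pow (v : Place K F) (y : F) (d : ℕ) : v.ord (y ^ d) = (d : ℤ) * v.ord y := by
  have := v.ord_zpow y (d : ℤ)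
  rwa [zpow_natCast] at this

end Ord

section Local

variable {x : F}

/-- the trace of `u f` is regular at the finite places. -/
theorem lower_trace_finite (h : IsRRField K F) (hx : Transcendental K x) (R : Divisor K F)
    (hR : ∀ v : Place K F, ∀ c : K, 0 < v.ord (x - algebraMap K F c) →
      R v ≤ v.ord (x - algebraMap K F c) - 1)
    (hLT : ∀ c : K, LowerLT1 (K := K) x (x - algebraMap K F c))
    {d : ℕ} {u f : F} (hu : u ∈ riemannRochSpace (d • poleDiv h x))
    (hf : f ∈ riemannRochSpace R) (Q : Place K F) (hQ : 0 ≤ Q.ord x) :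
    0 ≤ Q.ord (algebraMap K⟮x⟯ F (Algebra.trace K⟮x⟯ F (u * f))) := by
  obtain ⟨c, hc⟩ := exists_const_sub h Q hQ
  rcases hc with hc | hc
  · exact absurd (hc ▸ isAlgebraic_algebraMap (R := K) (A := F) c) hx
  refine hLT c (u * f) (fun P hP => ?_) Q hc
  by_cases huf : u * f = 0
  · rw [huf, P.ord_zero]
    omega
  have hu0 : u ≠ 0 := left_ne_zero_of_mul huf
  have hf0 : f ≠ 0 := right_ne_zero_of_mul huf
  have hPx : 0 ≤ P.ord x := lower_ord_nonneg_of_sub_const P c hP.le
  have h1 := (mem_riemannRochSpace_iff.mp hu P).resolve_left hu0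
  rw [Finsupp.smul_apply, poleDiv_apply, max_eq_right (by omega), smul_zero, neg_zero] at h1
  have h2 := (mem_riemannRochSpace_iff.mp hf P).resolve_left hf0
  have h3 := hR P c hP
  rw [P.ord_mul hu0 hf0]
  omega

/-- the trace of `u f` has a pole of order at most `d` at infinity. -/
theorem lower_trace_infinite (h : IsRRField K F) (hx : Transcendental K x) (R : Divisor K F)
    (hR : ∀ v : Place K F, v.ord x < 0 → R v ≤ -v.ord x - 1)
    (hLT : LowerLT1 (K := K) x x⁻¹)
    {d : ℕ} {u f : F} (hu : u ∈ riemannRochSpace (d • poleDiv h x))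
    (hf : f ∈ riemannRochSpace R) (P : Place K F) (hP : P.ord x < 0) :
    0 ≤ P.ord (x⁻¹ ^ d * algebraMap K⟮x⟯ F (Algebra.trace K⟮x⟯ F (u * f))) := by
  have hx0 : x ≠ 0 := fun h0 => hx (h0 ▸ isAlgebraic_zero)
  have hPinv : 0 < P.ord x⁻¹ := by rw [P.ord_inv]; omega
  have e : x⁻¹ ^ d * (u * f) = (((AdjoinSimple.gen K x)⁻¹ ^ d : K⟮x⟯)) • (u * f) := by
    rw [IntermediateField.smul_def, smul_eq_mul]
    simp
  have key := hLT (x⁻¹ ^ d * (u * f)) (fun P' hP' => ?_) P hPinv
  · rw [e, map_smul, smul_eq_mul, map_mul, map_pow, map_inv₀, AdjoinSimple.algebraMap_gen] at key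
    exact key
  · rw [P'.ord_inv] at hP' ⊢
    by_cases huf : u * f = 0
    · rw [huf, mul_zero, P'.ord_zero]
      omega
    have hu0 : u ≠ 0 := left_ne_zero_of_mul huf
    have hf0 : f ≠ 0 := right_ne_zero_of_mul huf
    have h1 := (mem_riemannRochSpace_iff.mp hu P').resolve_left hu0
    rw [Finsupp.smul_apply, poleDiv_apply, max_eq_left (by omega), nsmul_eq_mul] at h1
    have h2 := (mem_riemannRochSpace_iff.mp hf P').resolve_left hf0
    have h3 := hR P' (by omega)
    rw [P'.ord_mul (pow_ne_zero _ (inv_ne_zero hx0)) huf, P'.ord_mul hu0 hf0,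
      lower_ord_pow, P'.ord_inv]
    linarith

/-- the trace of `u f` is a polynomial in `x` of degree at most `d`. -/
theorem lower_trace_poly (h : IsRRField K F) (hx : Transcendental K x) (R : Divisor K F)
    (hR : ∀ v : Place K F, (v.ord x < 0 → R v ≤ -v.ord x - 1) ∧
      ∀ c : K, 0 < v.ord (x - algebraMap K F c) → R v ≤ v.ord (x - algebraMap K F c) - 1)
    (hLTfin : ∀ c : K, LowerLT1 (K := K) x (x - algebraMap K F c))
    (hLTinf : LowerLT1 (K := K) x x⁻¹) (hpoly : LowerPoly (K := K) x)
    {d : ℕ} {u f : F} (hu : u ∈ riemannRochSpace (d • poleDiv h x))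
    (hf : f ∈ riemannRochSpace R) :
    ∃ p : K[X], p.natDegree ≤ d ∧
      algebraMap K⟮x⟯ F (Algebra.trace K⟮x⟯ F (u * f)) = aeval x p := by
  have hx0 : x ≠ 0 := fun h0 => hx (h0 ▸ isAlgebraic_zero)
  have hmem := hpoly (Algebra.trace K⟮x⟯ F (u * f))
    (lower_trace_finite h hx R (fun v => (hR v).2) hLTfin hu hf)
  rw [Algebra.adjoin_singleton_eq_range_aeval] at hmem
  obtain ⟨p, hp⟩ := hmem
  have hp' : algebraMap K⟮x⟯ F (Algebra.trace K⟮x⟯ F (u * f)) = aeval x p := hp.symm
  refine ⟨p, ?_, hp'⟩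
  by_cases hp0 : p = 0
  · rw [hp0, natDegree_zero]
    exact Nat.zero_le _
  obtain ⟨P, hP⟩ := exists_pole h hx
  have hPx : P.ord x < 0 := (one_lt_adicValuation_iff P).mp hP
  have key := lower_trace_infinite h hx R (fun v => (hR v).1) hLTinf hu hf P hPx
  rw [hp', P.ord_mul (pow_ne_zero _ (inv_ne_zero hx0)) (aeval_ne_zero_of_transcendental hx hp0),
    lower_ord_pow, P.ord_inv, ord_aeval_of_pole hx P hPx hp0] at key
  by_contra hlt
  push Not at hlt
  have h1 : (d : ℤ) + 1 ≤ (p.natDegree : ℤ) := by exact_mod_cast hlt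
  nlinarith

end Local

section Count

variable {x : F} [FiniteDimensional K⟮x⟯ F] [Algebra.IsSeparable K⟮x⟯ F]

/-- the trace form separates: if `Tr(u_i f) = 0` for a basis `u_i` then `f = 0`. -/
theorem lower_eq_zero_of_trace_eq_zero {n : ℕ} {u : Fin n → F}
    (hn : n = Module.finrank K⟮x⟯ F) (hu : LinearIndependent K⟮x⟯ u) {f : F}
    (hf : ∀ i, Algebra.trace K⟮x⟯ F (u i * f) = 0) : f = 0 := by
  classical
  have hcard : Fintype.card (Fin n) = Module.finrank K⟮x⟯ F := by simpa using hn
  haveI : Nonempty (Fin n) := ⟨⟨0, by rw [hn]; exact Module.finrank_pos⟩⟩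
  let B : Module.Basis (Fin n) K⟮x⟯ F := basisOfLinearIndependentOfCardEqFinrank hu hcard
  have hB : ∀ j, B j = u j := fun j => by
    simp [B, coe_basisOfLinearIndependentOfCardEqFinrank]
  have hall : ∀ b : F, Algebra.traceForm K⟮x⟯ F f b = 0 := by
    intro b
    rw [Algebra.traceForm_apply, ← B.sum_repr b, Finset.mul_sum, map_sum]
    refine Finset.sum_eq_zero fun j _ => ?_
    rw [hB, mul_smul_comm, map_smul, mul_comm, hf j, smul_zero]
  exact (traceForm_nondegenerate K⟮x⟯ F).1 f hall

/-- the `K`-linear map `f ↦ Tr(u f)`, with values in `F`. -/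
def lowerTraceMap (x u : F) : F →ₗ[K] F :=
  ((Algebra.linearMap K⟮x⟯ F).restrictScalars K) ∘ₗ
    ((Algebra.trace K⟮x⟯ F).restrictScalars K) ∘ₗ (LinearMap.mulLeft K u)

theorem lowerTraceMap_apply (x u f : F) :
    lowerTraceMap (K := K) x u f = algebraMap K⟮x⟯ F (Algebra.trace K⟮x⟯ F (u * f)) := rfl

theorem lower_finrank_degreeLT (m : ℕ) : Module.finrank K (degreeLT K m) = m := by
  rw [LinearEquiv.finrank_eq (degreeLTEquiv K m), Module.finrank_fin_fun]

/-- counting: `ℓ(R) ≤ ∑ (d_i + 1)` if all `Tr(u_i f)`, `f ∈ L(R)`, are polynomials of degree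
`≤ d_i`. -/
theorem lower_ell_le {n : ℕ} {u : Fin n → F} {d : Fin n → ℕ}
    (hn : n = Module.finrank K⟮x⟯ F) (hu : LinearIndependent K⟮x⟯ u) (R : Divisor K F)
    (hpol : ∀ i, ∀ f ∈ riemannRochSpace R, ∃ p : K[X], p.natDegree ≤ d i ∧
      algebraMap K⟮x⟯ F (Algebra.trace K⟮x⟯ F (u i * f)) = aeval x p) :
    ell R ≤ ∑ i, (d i + 1) := by
  classical
  let φ : riemannRochSpace R →ₗ[K] (Fin n → F) :=
    LinearMap.pi fun i => (lowerTraceMap (K := K) x (u i)) ∘ₗ (riemannRochSpace R).subtype
  let Ψ : (∀ i : Fin n, degreeLT K (d i + 1)) →ₗ[K] (Fin n → F) :=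
    LinearMap.pi fun i =>
      ((aeval (R := K) x).toLinearMap ∘ₗ (degreeLT K (d i + 1)).subtype) ∘ₗ LinearMap.proj i
  have hφinj : Function.Injective φ := by
    rw [← LinearMap.ker_eq_bot, LinearMap.ker_eq_bot']
    intro f hf
    have h0 : ∀ i, Algebra.trace K⟮x⟯ F (u i * (f : F)) = 0 := by
      intro i
      have := congrFun hf i
      simp only [φ, LinearMap.pi_apply, LinearMap.comp_apply, Submodule.subtype_apply,
        lowerTraceMap_apply, Pi.zero_apply] at this
      exact (map_eq_zero_iff _ (algebraMap K⟮x⟯ F).injective).mp this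
    exact Subtype.ext (lower_eq_zero_of_trace_eq_zero hn hu h0)
  have hle : LinearMap.range φ ≤ LinearMap.range Ψ := by
    rintro _ ⟨f, rfl⟩
    choose p hp1 hp2 using fun i => hpol i (f : F) f.2
    have hmem : ∀ i, p i ∈ degreeLT K (d i + 1) := fun i => by
      rw [mem_degreeLT]
      exact lt_of_le_of_lt degree_le_natDegree (by exact_mod_cast Nat.lt_succ_of_le (hp1 i))
    refine ⟨fun i => ⟨p i, hmem i⟩, ?_⟩
    funext i
    simp only [Ψ, φ, LinearMap.pi_apply, LinearMap.comp_apply, Submodule.subtype_apply,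
      lowerTraceMap_apply, LinearMap.proj_apply, AlgHom.toLinearMap_apply]
    exact (hp2 i).symm
  have h1 : Module.finrank K (LinearMap.range φ) = ell R :=
    LinearMap.finrank_range_of_inj hφinj
  have h2 : Module.finrank K (LinearMap.range φ) ≤ Module.finrank K (LinearMap.range Ψ) :=
    Submodule.finrank_mono hle
  have h3 : Module.finrank K (LinearMap.range Ψ) ≤
      Module.finrank K (∀ i : Fin n, degreeLT K (d i + 1)) := LinearMap.finrank_range_le Ψ
  have h4 : Module.finrank K (∀ i : Fin n, degreeLT K (d i + 1)) = ∑ i, (d i + 1) := by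
    rw [Module.finrank_pi_fintype]
    exact Finset.sum_congr rfl fun i _ => lower_finrank_degreeLT (d i + 1)
  omega

end Count

/-- **Riemann-Hurwitz, lower bound for the genus** (any characteristic), with the local trace
lemma and the polynomial criterion as hypotheses. -/
theorem hurwitz_lower_core (h : IsRRField K F) {x : F} (hx : Transcendental K x)
    [FiniteDimensional K⟮x⟯ F] [Algebra.IsSeparable K⟮x⟯ F] (R : Divisor K F)
    (hR : ∀ v : Place K F, (v.ord x < 0 → R v ≤ -v.ord x - 1) ∧
      ∀ c : K, 0 < v.ord (x - algebraMap K F c) → R v ≤ v.ord (x - algebraMap K F c) - 1)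
    (hLTfin : ∀ c : K, LowerLT1 (K := K) x (x - algebraMap K F c))
    (hLTinf : LowerLT1 (K := K) x x⁻¹) (hpoly : LowerPoly (K := K) x) :
    Divisor.degree R ≤ 2 * (genusFF K F : ℤ) - 2 + 2 * (Module.finrank K⟮x⟯ F : ℤ) := by
  obtain ⟨u, d, hb⟩ := exists_isReducedBasis h hx
  have hsum := hb.sum_eq hx
  have hcount := lower_ell_le (K := K) (x := x) rfl hb.linInd R fun i f hf =>
    lower_trace_poly h hx R hR hLTfin hLTinf hpoly (hb.mem i) hf
  have hcount' : (ell R : ℤ) ≤
      ((∑ i : Fin (Module.finrank K⟮x⟯ F), (d i + 1) : ℕ) : ℤ) := by exact_mod_cast hcount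
  have hsplit : ((∑ i : Fin (Module.finrank K⟮x⟯ F), (d i + 1) : ℕ) : ℤ) =
      ∑ i, (d i : ℤ) + (Module.finrank K⟮x⟯ F : ℤ) := by
    push_cast
    rw [Finset.sum_add_distrib]
    simp
  have hrie := riemann_inequality h R
  rw [hsplit, hsum] at hcount'
  linarith

end Fermat.Agent.RRHur
end
end MergeWrap_Lib_RR_Hurwitz_LowerCore

section MergeWrap_Lib_RR_Hurwitz_Lower -- from Lib/RR/Hurwitz/Lower.lean

set_option autoImplicit false
set_option linter.style.haveILetI false
set_option linter.unusedSectionVars false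

/-!
# Riemann-Hurwitz by lattices, part 3a: lower bound for the genus (any characteristic)

`deg R ≤ 2 g - 2 + 2 n` for every divisor `R ≤ ∑ (e_P - 1) P`.

Proof. Reduced basis `u_i, d_i`.  For `f ∈ L(m Doo + R)` the trace `Tr_{F/K(x)}(u_i f)` is regular at all
finite `c` and has pole order `≤ d_i + m` at infinity (local trace lemma `ord_trace_nonneg` of
`LocalTrace.lean`, applied with `t = x - c` and with `t = x⁻¹`, `f := x^(-(d_i+m)) u_i f`), hence is a
polynomial of degree `≤ d_i + m` (`mem_adjoin_of_ord_nonneg`).  The map `f ↦ (Tr(u_i f))_i` is injective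
(trace form nondegenerate), so `ℓ(m Doo + R) ≤ ∑ (d_i + m + 1)`; Riemann's inequality gives
`ℓ(m Doo + R) ≥ m n + deg R + 1 - g`; and `∑ d_i = g + n - 1`.

(The proof below uses `m = 0`; the core of the argument is `hurwitz_lower_core` of `LowerCore.lean`.)
-/

noncomputable section

open AlgebraicCurve IntermediateField Polynomial

namespace Fermat.Agent.RRHur

open Fermat.Agent.RR

variable {K F : Type*} [Field K] [Field F] [Algebra K F]

/-- `R` is bounded above by the ramification divisor of `x`: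
`R P ≤ e_P - 1` where `e_P = -ord_P x` at the poles and `e_P = ord_P (x - c)` at the zeros of
`x - c`. -/
def IsRamBound (x : F) (R : Divisor K F) : Prop :=
  ∀ v : Place K F, (v.ord x < 0 → R v ≤ -v.ord x - 1) ∧
    ∀ c : K, 0 < v.ord (x - algebraMap K F c) → R v ≤ v.ord (x - algebraMap K F c) - 1

theorem lower_finiteDimensional_of_eq {E₁ E₂ : IntermediateField K F} (h : E₁ = E₂)
    [FiniteDimensional E₂ F] : FiniteDimensional E₁ F := by
  subst h
  infer_instance

theorem lower_isSeparable_of_eq {E₁ E₂ : IntermediateField K F} (h : E₁ = E₂)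
    [Algebra.IsSeparable E₂ F] : Algebra.IsSeparable E₁ F := by
  subst h
  infer_instance

/-- the local trace lemma for a parameter `t` with `K(t) = K(x)`, for the trace to `K(x)`. -/
theorem lowerLT1_of_adjoin_eq {x t : F} (ht : Transcendental K t) (hEq : K⟮t⟯ = K⟮x⟯)
    [FiniteDimensional K⟮x⟯ F] [Algebra.IsSeparable K⟮x⟯ F] : LowerLT1 (K := K) x t := by
  haveI : FiniteDimensional K⟮t⟯ F := lower_finiteDimensional_of_eq hEq
  haveI : Algebra.IsSeparable K⟮t⟯ F := lower_isSeparable_of_eq hEq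
  intro f hf P hP
  rw [← algebraMap_trace_eq_of_adjoin_eq t x hEq f]
  exact ord_trace_nonneg t ht f hf P hP

theorem lower_adjoin_sub_const (x : F) (c : K) : K⟮x - algebraMap K F c⟯ = K⟮x⟯ := by
  apply le_antisymm
  · rw [IntermediateField.adjoin_simple_le_iff]
    exact sub_mem (IntermediateField.mem_adjoin_simple_self K x)
      (IntermediateField.algebraMap_mem _ c)
  · rw [IntermediateField.adjoin_simple_le_iff]
    have h1 : x - algebraMap K F c ∈ K⟮x - algebraMap K F c⟯ :=
      IntermediateField.mem_adjoin_simple_self K _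
    have h2 : algebraMap K F c ∈ K⟮x - algebraMap K F c⟯ :=
      IntermediateField.algebraMap_mem _ c
    have h3 := add_mem h1 h2
    rwa [sub_add_cancel] at h3

theorem lower_adjoin_inv (x : F) : K⟮x⁻¹⟯ = K⟮x⟯ := by
  apply le_antisymm
  · rw [IntermediateField.adjoin_simple_le_iff]
    exact inv_mem (IntermediateField.mem_adjoin_simple_self K x)
  · rw [IntermediateField.adjoin_simple_le_iff]
    have h1 : x⁻¹ ∈ K⟮x⁻¹⟯ := IntermediateField.mem_adjoin_simple_self K _
    have h2 := inv_mem h1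
    rwa [inv_inv] at h2

theorem lower_transcendental_sub_const {x : F} (hx : Transcendental K x) (c : K) :
    Transcendental K (x - algebraMap K F c) := by
  intro halg
  apply hx
  have h2 := halg.add (isAlgebraic_algebraMap (R := K) (A := F) c)
  rwa [sub_add_cancel] at h2

theorem lower_transcendental_inv {x : F} (hx : Transcendental K x) : Transcendental K x⁻¹ := by
  intro halg
  apply hx
  have h2 := halg.inv
  rwa [inv_inv] at h2

/-- **Riemann-Hurwitz, lower bound for the genus** (any characteristic). -/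
theorem hurwitz_lower [IsAlgClosed K] (h : IsRRField K F) {x : F} (hx : Transcendental K x)
    [FiniteDimensional K⟮x⟯ F] [Algebra.IsSeparable K⟮x⟯ F] (R : Divisor K F)
    (hR : IsRamBound x R) :
    Divisor.degree R ≤ 2 * (genusFF K F : ℤ) - 2 + 2 * (Module.finrank K⟮x⟯ F : ℤ) := by
  exact hurwitz_lower_core h hx R hR
    (fun c => lowerLT1_of_adjoin_eq (lower_transcendental_sub_const hx c)
      (lower_adjoin_sub_const x c))
    (lowerLT1_of_adjoin_eq (lower_transcendental_inv hx) (lower_adjoin_inv x))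
    (fun a ha => mem_adjoin_of_ord_nonneg x hx a ha)

end Fermat.Agent.RRHur
end
end MergeWrap_Lib_RR_Hurwitz_Lower
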