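import Mathlib
import Fermat.Agent.MU.Lib.RR.RRI
import Fermat.Agent.MU.Lib.RR.Hurwitz.Norm
import Fermat.Agent.MU.Lib.RR.Hurwitz.Count
import Fermat.Agent.Lib.RR.Hurwitz.LocalTrace
import Fermat.Agent.MU.Lib.RR.Hurwitz.Lower

section MergeWrap_Lib_RR_Hurwitz_UpperCore -- from Lib/RR/Hurwitz/UpperCore.lean

set_option autoImplicit false
set_option linter.style.haveILetI false
set_option linter.unusedSectionVars false

/-!
# Riemann-Hurwitz by lattices, part 3b (core): the upper bound from the local trace lemma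

The proof of `hurwitz_upper_tame` with the tame exactness lemma (`LT2` of `LocalTrace.lean`) and the
change-of-parameter lemma for the trace taken as hypotheses.
-/

noncomputable section

open AlgebraicCurve IntermediateField Polynomial

namespace Fermat.Agent.RRHur

open Fermat.Agent.RR

variable {K F : Type*} [Field K] [Field F] [Algebra K F]

/-- the statement of the tame exactness lemma `LT2` for the parameter `t` and the trace to `K(x)`. -/
def UpperLT2 (x t : F) [FiniteDimensional K⟮x⟯ F] : Prop :=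
  ∀ (P : Place K F), 0 < P.ord t → (((P.ord t).toNat : ℕ) : K) ≠ 0 → ∀ g : F,
    (∀ b : F, (∀ Q : Place K F, 0 ≤ Q.ord t → 0 ≤ Q.ord b) →
      ∀ P' : Place K F, 0 < P'.ord t →
        0 ≤ P'.ord (algebraMap K⟮x⟯ F (Algebra.trace K⟮x⟯ F (g * b)))) →
    1 - P.ord t ≤ P.ord g

section Dual

variable {x : F} [FiniteDimensional K⟮x⟯ F] [Algebra.IsSeparable K⟮x⟯ F]

/-- the dual basis of a `K(x)`-basis for the trace form. -/
theorem upper_exists_dual {n : ℕ} (u : Fin n → F) (hu : LinearIndependent K⟮x⟯ u)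
    (hn : n = Module.finrank K⟮x⟯ F) :
    ∃ w : Fin n → F, LinearIndependent K⟮x⟯ w ∧
      (∀ i j, Algebra.trace K⟮x⟯ F (w i * u j) = if j = i then 1 else 0) ∧
      (∀ b : F, ∃ a : Fin n → K⟮x⟯, b = ∑ j, (a j : F) * u j) := by
  classical
  have hcard : Fintype.card (Fin n) = Module.finrank K⟮x⟯ F := by simpa using hn
  haveI : Nonempty (Fin n) := ⟨⟨0, by rw [hn]; exact Module.finrank_pos⟩⟩
  let B : Module.Basis (Fin n) K⟮x⟯ F := basisOfLinearIndependentOfCardEqFinrank hu hcard
  have hB : ∀ j, B j = u j := fun j => by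
    simp [B, coe_basisOfLinearIndependentOfCardEqFinrank]
  let B' := (Algebra.traceForm K⟮x⟯ F).dualBasis (traceForm_nondegenerate K⟮x⟯ F) B
  refine ⟨fun i => B' i, B'.linearIndependent, fun i j => ?_, fun b => ?_⟩
  · have := LinearMap.BilinForm.apply_dualBasis_left (traceForm_nondegenerate K⟮x⟯ F) B i j
    rw [Algebra.traceForm_apply, hB] at this
    exact this
  · refine ⟨fun j => B.repr b j, ?_⟩
    conv_lhs => rw [← B.sum_repr b]
    refine Finset.sum_congr rfl fun j _ => ?_
    rw [hB, IntermediateField.smul_def, smul_eq_mul]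

/-- the trace of `w i * ∑ a_j u_j` is `a_i`. -/
theorem upper_trace_dual {n : ℕ} {u w : Fin n → F}
    (hw : ∀ i j, Algebra.trace K⟮x⟯ F (w i * u j) = if j = i then 1 else 0)
    (a : Fin n → K⟮x⟯) (i : Fin n) :
    Algebra.trace K⟮x⟯ F (w i * ∑ j, (a j : F) * u j) = a i := by
  classical
  rw [Finset.mul_sum, map_sum]
  have : ∀ j, Algebra.trace K⟮x⟯ F (w i * ((a j : F) * u j)) = a j * (if j = i then 1 else 0) := by
    intro j
    have e : w i * ((a j : F) * u j) = a j • (w i * u j) := by
      rw [IntermediateField.smul_def, smul_eq_mul]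
      ring
    rw [e, map_smul, hw, smul_eq_mul]
  simp only [this, mul_ite, mul_one, mul_zero, Finset.sum_ite_eq', Finset.mem_univ, if_true]

end Dual

section Ord

theorem upper_ord_sub_const_nonneg (v : Place K F) {x : F} (c : K) (hv : 0 ≤ v.ord x) :
    0 ≤ v.ord (x - algebraMap K F c) := by
  rw [← adicValuation_le_one_iff' v] at hv ⊢
  exact (Valuation.map_sub _ _ _).trans (max_le hv (v.adicValuation_algebraMap_le_one c))

theorem upper_ord_nonneg_of_sub_const (v : Place K F) {x : F} (c : K)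
    (hv : 0 ≤ v.ord (x - algebraMap K F c)) : 0 ≤ v.ord x := by
  rw [← adicValuation_le_one_iff' v] at hv ⊢
  have : x = (x - algebraMap K F c) + algebraMap K F c := by ring
  rw [this]
  exact (Valuation.map_add _ _ _).trans (max_le hv (v.adicValuation_algebraMap_le_one c))

theorem upper_ord_aeval_nonneg (v : Place K F) {x : F} (hv : 0 ≤ v.ord x) (p : K[X]) :
    0 ≤ v.ord (aeval x p) := by
  rw [← adicValuation_le_one_iff' v] at hv ⊢
  exact adicValuation_aeval_le_one v hv p

theorem upper_algebraMap_aeval_gen (x : F) (p : K[X]) :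
    algebraMap K⟮x⟯ F (aeval (AdjoinSimple.gen K x) p) = aeval x p := by
  rw [← Polynomial.aeval_algebraMap_apply, AdjoinSimple.algebraMap_gen]

end Ord

section Local

variable [IsAlgClosed K] {h : IsRRField K F} {x : F}
  [FiniteDimensional K⟮x⟯ F] [Algebra.IsSeparable K⟮x⟯ F]

/-- the dual basis at the finite places. -/
theorem upper_ord_dual_finite {n : ℕ} {u w : Fin n → F} {d : Fin n → ℕ}
    (hb : IsReducedBasis h x u d)
    (hw : ∀ i j, Algebra.trace K⟮x⟯ F (w i * u j) = if j = i then 1 else 0)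
    (c : K) (hLT : UpperLT2 (K := K) x (x - algebraMap K F c))
    (P : Place K F) (hP : 0 < P.ord (x - algebraMap K F c))
    (he : (((P.ord (x - algebraMap K F c)).toNat : ℕ) : K) ≠ 0) (i : Fin n) :
    1 - P.ord (x - algebraMap K F c) ≤ P.ord (w i) := by
  apply hLT P hP he (w i)
  intro b hbQ P' hP'
  have hb' : ∀ v : Place K F, 0 ≤ v.ord x → 0 ≤ v.ord b := fun v hv =>
    hbQ v (upper_ord_sub_const_nonneg v c hv)
  obtain ⟨a, ha⟩ := hb.integral b hb'
  have ha' : b = ∑ j, ((aeval (AdjoinSimple.gen K x) (a j) : K⟮x⟯) : F) * u j := by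
    rw [ha]
    refine Finset.sum_congr rfl fun j _ => ?_
    congr 1
    exact (upper_algebraMap_aeval_gen x (a j)).symm
  rw [ha', upper_trace_dual hw, upper_algebraMap_aeval_gen]
  exact upper_ord_aeval_nonneg P' (upper_ord_nonneg_of_sub_const P' c hP'.le) (a i)

/-- the dual basis at the poles of `x`. -/
theorem upper_ord_dual_infinite (hx : Transcendental K x) {n : ℕ} {u w : Fin n → F}
    {d : Fin n → ℕ} (hb : IsReducedBasis h x u d)
    (hw : ∀ i j, Algebra.trace K⟮x⟯ F (w i * u j) = if j = i then 1 else 0)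
    (hexp : ∀ b : F, ∃ a : Fin n → K⟮x⟯, b = ∑ j, (a j : F) * u j)
    (hLT : UpperLT2 (K := K) x x⁻¹)
    (P : Place K F) (hP : P.ord x < 0)
    (he : (((-P.ord x).toNat : ℕ) : K) ≠ 0) (i : Fin n) (hwi : w i ≠ 0) :
    (d i : ℤ) * (-P.ord x) + 1 - (-P.ord x) ≤ P.ord (w i) := by
  have hx0 : x ≠ 0 := fun h0 => hx (h0 ▸ isAlgebraic_zero)
  have hPinv : 0 < P.ord x⁻¹ := by rw [P.ord_inv]; omega
  have he' : (((P.ord x⁻¹).toNat : ℕ) : K) ≠ 0 := by rwa [P.ord_inv]
  have key := hLT P hPinv he' (x ^ d i * w i) ?_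
  · rw [P.ord_mul (pow_ne_zero _ hx0) hwi, P.ord_inv] at key
    have hpow : P.ord (x ^ d i) = (d i : ℤ) * P.ord x := by
      have := P.ord_zpow x (d i : ℤ)
      rwa [zpow_natCast] at this
    rw [hpow] at key
    linarith
  · intro b hbQ P' hP'
    have hP'x : P'.ord x < 0 := by rw [P'.ord_inv] at hP'; omega
    obtain ⟨a, ha⟩ := hexp b
    have horth := hb.orth a (fun v hv => by
      rw [← ha]
      exact hbQ v (by rw [v.ord_inv]; omega)) i P' hP'x
    have htr : Algebra.trace K⟮x⟯ F (x ^ d i * w i * b) =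
        (AdjoinSimple.gen K x) ^ d i * a i := by
      have e : x ^ d i * w i * b = ((AdjoinSimple.gen K x) ^ d i : K⟮x⟯) • (w i * b) := by
        rw [IntermediateField.smul_def, smul_eq_mul]
        simp [mul_assoc]
      rw [e, map_smul, ha, upper_trace_dual hw, smul_eq_mul]
    rw [htr]
    by_cases hai : a i = 0
    · rw [hai, mul_zero, map_zero, P'.ord_zero]
    · have hge : (d i : ℤ) * (-P'.ord x) ≤ P'.ord (a i : F) := horth.resolve_left hai
      have haiF : (a i : F) ≠ 0 := fun h0 => hai (Subtype.ext h0)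
      have hmap : algebraMap K⟮x⟯ F ((AdjoinSimple.gen K x) ^ d i * a i) = x ^ d i * (a i : F) := by
        rw [map_mul, map_pow, AdjoinSimple.algebraMap_gen]
        rfl
      have hpow : P'.ord (x ^ d i) = (d i : ℤ) * P'.ord x := by
        have := P'.ord_zpow x (d i : ℤ)
        rwa [zpow_natCast] at this
      rw [hmap, P'.ord_mul (pow_ne_zero _ hx0) haiF, hpow]
      linarith

/-- the dual basis lies in `L(R - d_i (x)_∞)`. -/
theorem upper_dual_mem (hx : Transcendental K x) {n : ℕ} {u w : Fin n → F}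
    {d : Fin n → ℕ} (hb : IsReducedBasis h x u d)
    (hw : ∀ i j, Algebra.trace K⟮x⟯ F (w i * u j) = if j = i then 1 else 0)
    (hexp : ∀ b : F, ∃ a : Fin n → K⟮x⟯, b = ∑ j, (a j : F) * u j)
    (hwne : ∀ i, w i ≠ 0)
    (R : Divisor K F)
    (hR : ∀ v : Place K F,
      (v.ord x < 0 → -v.ord x - 1 ≤ R v ∧ (((-v.ord x).toNat : ℕ) : K) ≠ 0) ∧
      ∀ c : K, 0 < v.ord (x - algebraMap K F c) →
        v.ord (x - algebraMap K F c) - 1 ≤ R v ∧
          ((((v.ord (x - algebraMap K F c)).toNat : ℕ)) : K) ≠ 0)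
    (hLTfin : ∀ c : K, UpperLT2 (K := K) x (x - algebraMap K F c))
    (hLTinf : UpperLT2 (K := K) x x⁻¹) (i : Fin n) :
    w i ∈ riemannRochSpace (R - d i • poleDiv h x) := by
  rw [mem_riemannRochSpace_iff]
  intro v
  right
  rw [Finsupp.sub_apply, Finsupp.smul_apply, poleDiv_apply, nsmul_eq_mul]
  rcases lt_or_ge (v.ord x) 0 with hv | hv
  · obtain ⟨h1, h2⟩ := (hR v).1 hv
    have := upper_ord_dual_infinite hx hb hw hexp hLTinf v hv h2 i (hwne i)
    rw [max_eq_left (by omega)]
    linarith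
  · rw [max_eq_right (by omega), mul_zero, sub_zero]
    obtain ⟨c, hc⟩ := exists_const_sub h v hv
    rcases hc with hc | hc
    · exact absurd (hc ▸ isAlgebraic_algebraMap (R := K) (A := F) c) hx
    · obtain ⟨h1, h2⟩ := (hR v).2 c hc
      have := upper_ord_dual_finite hb hw c (hLTfin c) v hc h2 i
      linarith

/-- counting: the `x^k w_i`, `k ≤ m + d_i`, are independent in `L(m (x)_∞ + R)`. -/
theorem upper_count (hx : Transcendental K x) {n : ℕ} {w : Fin n → F} {d : Fin n → ℕ}
    (hwind : LinearIndependent K⟮x⟯ w) (R : Divisor K F)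
    (hmem : ∀ i, w i ∈ riemannRochSpace (R - d i • poleDiv h x)) (m : ℕ) :
    ∑ i, (m + d i + 1) ≤ ell (m • poleDiv h x + R) := by
  classical
  have hfin : Module.Finite K (riemannRochSpace (m • poleDiv h x + R)) :=
    finite_riemannRochSpace h _
  let ι := Σ i : Fin n, Fin (m + d i + 1)
  let φ : ι → ℕ × Fin n := fun p => ((p.2 : ℕ), p.1)
  have hφ : Function.Injective φ := by
    rintro ⟨i, k⟩ ⟨i', k'⟩ hp
    simp only [φ, Prod.mk.injEq] at hp
    obtain ⟨hk, rfl⟩ := hp
    have : k = k' := Fin.ext hk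
    rw [this]
  have hind : LinearIndependent K (fun p : ι => x ^ (p.2 : ℕ) * w p.1) :=
    (linearIndependent_pow_mul hx w hwind).comp φ hφ
  have hmem' : ∀ p : ι, x ^ (p.2 : ℕ) * w p.1 ∈ riemannRochSpace (m • poleDiv h x + R) := by
    rintro ⟨i, k⟩
    have hk : (k : ℕ) ≤ m + d i := Nat.lt_succ_iff.mp k.2
    have := pow_mul_mem h x (hmem i) hk
    have e : (m + d i) • poleDiv h x + (R - d i • poleDiv h x) = m • poleDiv h x + R := by
      rw [add_smul]
      abel
    rwa [e] at this
  let f : ι → riemannRochSpace (m • poleDiv h x + R) := fun p => ⟨_, hmem' p⟩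
  have hindf : LinearIndependent K f :=
    LinearIndependent.of_comp (riemannRochSpace (m • poleDiv h x + R)).subtype hind
  have hcard := hindf.fintype_card_le_finrank
  have hι : Fintype.card ι = ∑ i, (m + d i + 1) := by
    simp [ι, Fintype.card_sigma]
  rw [hι] at hcard
  exact hcard

/-- **Riemann-Hurwitz, upper bound for the genus** (tame ramification), with the local trace
lemmas as hypotheses. -/
theorem hurwitz_upper_core (h : IsRRField K F) (hx : Transcendental K x) (R : Divisor K F)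
    (hR : ∀ v : Place K F,
      (v.ord x < 0 → -v.ord x - 1 ≤ R v ∧ (((-v.ord x).toNat : ℕ) : K) ≠ 0) ∧
      ∀ c : K, 0 < v.ord (x - algebraMap K F c) →
        v.ord (x - algebraMap K F c) - 1 ≤ R v ∧
          ((((v.ord (x - algebraMap K F c)).toNat : ℕ)) : K) ≠ 0)
    (hLTfin : ∀ c : K, UpperLT2 (K := K) x (x - algebraMap K F c))
    (hLTinf : UpperLT2 (K := K) x x⁻¹) :
    2 * (genusFF K F : ℤ) - 2 + 2 * (Module.finrank K⟮x⟯ F : ℤ) ≤ Divisor.degree R := by
  obtain ⟨u, d, hb⟩ := exists_isReducedBasis h hx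
  obtain ⟨w, hwind, hw, hexp⟩ := upper_exists_dual u hb.linInd rfl
  have hwne : ∀ i, w i ≠ 0 := fun i => hwind.ne_zero i
  have hmem := upper_dual_mem hx hb hw hexp hwne R hR hLTfin hLTinf
  obtain ⟨c, hc⟩ := exists_idx_eq_zero h
  have hn : 0 < Module.finrank K⟮x⟯ F := Module.finrank_pos
  have hdeg := degree_poleDiv_eq_finrank h hx
  have hsum := hb.sum_eq hx
  -- choose `m` large
  set m : ℕ := (c - Divisor.degree R).toNat with hm
  have hdegm : Divisor.degree (m • poleDiv h x + R) =
      (m : ℤ) * (Module.finrank K⟮x⟯ F : ℤ) + Divisor.degree R := by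
    rw [map_add, map_nsmul, hdeg, nsmul_eq_mul]
  have hlarge : c ≤ Divisor.degree (m • poleDiv h x + R) := by
    rw [hdegm]
    have h1 : c - Divisor.degree R ≤ (m : ℤ) := Int.self_le_toNat _
    have h2 : (m : ℤ) ≤ (m : ℤ) * (Module.finrank K⟮x⟯ F : ℤ) := by
      have : (1 : ℤ) ≤ (Module.finrank K⟮x⟯ F : ℤ) := by exact_mod_cast hn
      nlinarith [Int.natCast_nonneg m]
    linarith
  have hidx := hc _ hlarge
  have hrr := riemann_roch_H1 h (m • poleDiv h x + R)
  rw [hidx, hdegm] at hrr
  have hcount := upper_count (h := h) hx hwind R hmem m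
  have hcount' : ((∑ i : Fin (Module.finrank K⟮x⟯ F), (m + d i + 1) : ℕ) : ℤ) ≤
      (ell (m • poleDiv h x + R) : ℤ) := by exact_mod_cast hcount
  have hsplit : ((∑ i : Fin (Module.finrank K⟮x⟯ F), (m + d i + 1) : ℕ) : ℤ) =
      (Module.finrank K⟮x⟯ F : ℤ) * ((m : ℤ) + 1) + ∑ i, (d i : ℤ) := by
    push_cast
    rw [Finset.sum_add_distrib, Finset.sum_add_distrib]
    simp
    ring
  rw [hsplit, hsum, hrr] at hcount'
  push_cast at hcount'
  linarith

end Local

end Fermat.Agent.RRHur
end
end MergeWrap_Lib_RR_Hurwitz_UpperCore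

section MergeWrap_Lib_RR_Hurwitz_Upper -- from Lib/RR/Hurwitz/Upper.lean

set_option autoImplicit false
set_option linter.style.haveILetI false
set_option linter.unusedSectionVars false

/-!
# Riemann-Hurwitz by lattices, part 3b: upper bound for the genus (tame ramification)

`2 g - 2 + 2 n ≤ deg R` if `R ≥ ∑ (e_P - 1) P` and all `e_P` are nonzero in `K`.

Proof. Reduced basis `u_i, d_i`, dual basis `u_i^*` for the trace form of `F / K(x)`
(`Tr(u_i^* u_j) = δ_ij`).  CLAIM: `u_i^* ∈ L(R - d_i Doo)`.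
* finite place `P` over `c`: for `b` without poles over the finite part, `b = ∑ a_j(x) u_j` with
  polynomials `a_j` (`IsReducedBasis.integral`), so `Tr(u_i^* b) = a_i(x)` is regular at `c`;
  tame exactness `ord_ge_of_trace_regular` (`LocalTrace.lean`, `t = x - c`) gives
  `ord_P u_i^* ≥ -(e_P - 1)`.
* pole `P` of `x`: `g := x^(d_i) u_i^*`; for `b` regular at the poles of `x`, `b = ∑ a_j u_j`, `a_j ∈ K(x)`,
  `IsReducedBasis.orth` gives `ord_P a_j ≥ d_j e_P`, so `Tr(g b) = x^(d_i) a_i` is regular at the poles;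
  `ord_ge_of_trace_regular` with `t = x⁻¹` gives `ord_P u_i^* ≥ d_i e_P - (e_P - 1)`.
Then `x^k u_i^*` (`k ≤ m + d_i`) are independent in `L(m Doo + R)`: `ℓ(m Doo + R) ≥ ∑ (m + d_i + 1)`;
Riemann-Roch for `m` large: `ℓ(m Doo + R) = m n + deg R + 1 - g`; and `∑ d_i = g + n - 1`.
-/

noncomputable section

open AlgebraicCurve IntermediateField Polynomial

namespace Fermat.Agent.RRHur

open Fermat.Agent.RR

variable {K F : Type*} [Field K] [Field F] [Algebra K F]

theorem upper_adjoin_sub_const (x : F) (c : K) : K⟮x - algebraMap K F c⟯ = K⟮x⟯ := by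
  apply le_antisymm
  · rw [adjoin_simple_le_iff]
    exact sub_mem (mem_adjoin_simple_self K x) (IntermediateField.algebraMap_mem _ c)
  · rw [adjoin_simple_le_iff]
    have h1 := add_mem (mem_adjoin_simple_self K (x - algebraMap K F c))
      (IntermediateField.algebraMap_mem K⟮x - algebraMap K F c⟯ c)
    simpa using h1

theorem upper_adjoin_inv (x : F) : K⟮x⁻¹⟯ = K⟮x⟯ := by
  apply le_antisymm
  · rw [adjoin_simple_le_iff]
    exact inv_mem (mem_adjoin_simple_self K x)
  · rw [adjoin_simple_le_iff]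
    have h1 := inv_mem (mem_adjoin_simple_self K x⁻¹)
    simpa using h1

theorem upper_transcendental_sub_const {x : F} (hx : Transcendental K x) (c : K) :
    Transcendental K (x - algebraMap K F c) := by
  intro halg
  apply hx
  have h1 := halg.add (isAlgebraic_algebraMap (R := K) (A := F) c)
  simpa using h1

theorem upper_transcendental_inv {x : F} (hx : Transcendental K x) :
    Transcendental K x⁻¹ := by
  intro halg
  apply hx
  have h1 := halg.inv
  simpa using h1


section Final

variable [IsAlgClosed K]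

/-- `LT2` for a parameter `t` with `K(t) = K(x)`, with the trace to `K(x)`. -/
theorem upperLT2_of_adjoin_eq {x t : F} (ht : Transcendental K t) (hxt : K⟮t⟯ = K⟮x⟯)
    [FiniteDimensional K⟮x⟯ F] [Algebra.IsSeparable K⟮x⟯ F] : UpperLT2 (K := K) x t := by
  haveI hfd : FiniteDimensional K⟮t⟯ F := hxt ▸ (inferInstance : FiniteDimensional K⟮x⟯ F)
  haveI hsep : Algebra.IsSeparable K⟮t⟯ F := hxt ▸ (inferInstance : Algebra.IsSeparable K⟮x⟯ F)
  intro P hP he g hg
  refine ord_ge_of_trace_regular t ht P hP he g fun b hb P' hP' => ?_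
  rw [algebraMap_trace_eq_of_adjoin_eq t x hxt]
  exact hg b hb P' hP'

end Final

/-- `R` is bounded below by the ramification divisor of `x`, and `x` is tamely ramified. -/
def IsTameRamDiv (x : F) (R : Divisor K F) : Prop :=
  ∀ v : Place K F,
    (v.ord x < 0 → -v.ord x - 1 ≤ R v ∧ (((-v.ord x).toNat : ℕ) : K) ≠ 0) ∧
    ∀ c : K, 0 < v.ord (x - algebraMap K F c) →
      v.ord (x - algebraMap K F c) - 1 ≤ R v ∧
        ((((v.ord (x - algebraMap K F c)).toNat : ℕ)) : K) ≠ 0

/-- **Riemann-Hurwitz, upper bound for the genus** (tame ramification). -/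
theorem hurwitz_upper_tame [IsAlgClosed K] (h : IsRRField K F) {x : F} (hx : Transcendental K x)
    [FiniteDimensional K⟮x⟯ F] [Algebra.IsSeparable K⟮x⟯ F] (R : Divisor K F)
    (hR : IsTameRamDiv x R) :
    2 * (genusFF K F : ℤ) - 2 + 2 * (Module.finrank K⟮x⟯ F : ℤ) ≤ Divisor.degree R :=
  hurwitz_upper_core h hx R hR
    (fun c => upperLT2_of_adjoin_eq (upper_transcendental_sub_const hx c)
      (upper_adjoin_sub_const x c))
    (upperLT2_of_adjoin_eq (upper_transcendental_inv hx) (upper_adjoin_inv x))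

end Fermat.Agent.RRHur
end
end MergeWrap_Lib_RR_Hurwitz_Upper

section MergeWrap_Lib_RR_Hurwitz_Main -- from Lib/RR/Hurwitz/Main.lean

set_option autoImplicit false
set_option linter.style.haveILetI false
set_option linter.unusedSectionVars false

/-!
# Riemann-Hurwitz by lattices: comparison of genera

Tame ramification data on `F` (characteristic `0`), dominated by ramification data on `F'`
(characteristic `ℓ`) with the same degree: `g(F) ≤ g(F')`.
-/

noncomputable section

open AlgebraicCurve IntermediateField Polynomial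

namespace Fermat.Agent.RRHur

open Fermat.Agent.RR

variable {K F : Type*} [Field K] [Field F] [Algebra K F]

theorem genusFF_le_of_hurwitz {K' F' : Type*} [Field K'] [Field F'] [Algebra K' F']
    [IsAlgClosed K] [IsAlgClosed K'] (h : IsRRField K F) (h' : IsRRField K' F')
    {x : F} (hx : Transcendental K x) [FiniteDimensional K⟮x⟯ F] [Algebra.IsSeparable K⟮x⟯ F]
    {x' : F'} (hx' : Transcendental K' x') [FiniteDimensional K'⟮x'⟯ F']
    [Algebra.IsSeparable K'⟮x'⟯ F']
    (hn : Module.finrank K'⟮x'⟯ F' = Module.finrank K⟮x⟯ F)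
    (R : Divisor K F) (hR : IsTameRamDiv x R) (R' : Divisor K' F') (hR' : IsRamBound x' R')
    (hdeg : Divisor.degree R ≤ Divisor.degree R') :
    genusFF K F ≤ genusFF K' F' := by
  have h1 := hurwitz_upper_tame h hx R hR
  have h2 := hurwitz_lower h' hx' R' hR'
  rw [hn] at h2
  omega

end Fermat.Agent.RRHur
end
end MergeWrap_Lib_RR_Hurwitz_Main
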