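import Mathlib
import Fermat.Agent.MU.Lib.RR.Hurwitz.Count

section MergeWrap_Lib_RR_Hurwitz_FibreDeg -- from Lib/RR/Hurwitz/FibreDeg.lean

set_option autoImplicit false
set_option linter.style.haveILetI false
set_option linter.unusedSectionVars false

/-!
# Riemann-Hurwitz by lattices: fibres of `x` and the local ramification divisors

For `c : K` the fibre of `x` over `c` is `{v // 0 < ord_v (x - c)}`, the fibre over `∞` is
`{v // ord_v x < 0}`.  Fundamental identity: `∑_{v over c} ord_v (x - c) = [F : K(x)]`
(from `degree_poleDiv_eq_finrank` and `degree (div (x - c)) = 0`; the poles of `x - c` are the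
poles of `x`, with the same orders).  Hence the divisors
`ramAt h x c = ∑_{v over c} (e_v - 1) v`, `ramInf h x = ∑_{v over ∞} (e_v - 1) v` have degree
`n - #fibre`.

STUB by helper40 (architect of Lib/RR/Hurwitz); proofs by helper71.
-/

noncomputable section

open AlgebraicCurve IntermediateField Polynomial

namespace Fermat.Agent.RRHur

open Fermat.Agent.RR

variable {K F : Type*} [Field K] [Field F] [Algebra K F]

/-! ### auxiliary: sums over a finite set containing the support -/

/-- the degree of a divisor is the sum of its coefficients over any finite set containing the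
support. -/
theorem fibreDeg_degree_eq_sum_of_subset (h : IsRRField K F) (D : Divisor K F)
    (s : Finset (Place K F)) (hs : D.support ⊆ s) :
    Divisor.degree D = ∑ v ∈ s, D v := by
  rw [degree_eq_sum h]
  refine Finset.sum_subset hs fun v _ hv => ?_
  rwa [Finsupp.notMem_support_iff] at hv

/-- at a pole of `x`, `ord (x - c) = ord x`. -/
theorem fibreDeg_ord_sub_const_of_pole (v : Place K F) {x : F} (c : K) (hv : v.ord x < 0) :
    v.ord (x - algebraMap K F c) = v.ord x := by
  have h1 : v.adicValuation (x - algebraMap K F c) = v.adicValuation x := by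
    apply Valuation.map_sub_eq_of_lt_left
    exact lt_of_le_of_lt (v.adicValuation_algebraMap_le_one c)
      ((one_lt_adicValuation_iff v).mpr hv)
  unfold Place.ord
  rw [h1]

/-- away from the poles of `x`, `x - c` has no pole. -/
theorem fibreDeg_ord_sub_const_nonneg (v : Place K F) {x : F} (c : K) (hv : 0 ≤ v.ord x) :
    0 ≤ v.ord (x - algebraMap K F c) := by
  rw [← adicValuation_le_one_iff']
  refine le_trans (Valuation.map_sub _ _ _) (max_le ?_ (v.adicValuation_algebraMap_le_one c))
  exact (adicValuation_le_one_iff' v).mpr hv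

/-- the pole divisor of `x - c` is the pole divisor of `x`. -/
theorem fibreDeg_poleDiv_sub_const (h : IsRRField K F) (x : F) (c : K) :
    poleDiv h (x - algebraMap K F c) = poleDiv h x := by
  ext v
  rw [poleDiv_apply, poleDiv_apply]
  rcases lt_or_ge (v.ord x) 0 with hv | hv
  · rw [fibreDeg_ord_sub_const_of_pole v c hv]
  · have h1 := fibreDeg_ord_sub_const_nonneg v c hv
    rw [max_eq_right (by omega), max_eq_right (by omega)]

/-- counting a subset of a finset by an indicator sum. -/
theorem fibreDeg_card_eq_sum (s : Finset (Place K F)) (p : Place K F → Prop)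
    (hp : ∀ v, p v → v ∈ s) :
    (Nat.card {v : Place K F // p v} : ℤ) = ∑ v ∈ s, (open Classical in if p v then (1 : ℤ) else 0) := by
  classical
  have h1 : Nat.card {v : Place K F // p v} = (s.filter p).card :=
    Nat.subtype_card (s.filter p) fun v => by
      rw [Finset.mem_filter]
      exact ⟨fun hv => hv.2, fun hv => ⟨hp v hv, hv⟩⟩
  rw [h1, Finset.card_filter]
  push_cast
  rfl

/-- the fibre of `x` over `c` is finite. -/
theorem finite_zeroFibre (h : IsRRField K F) {x : F} (hx : Transcendental K x) (c : K) :
    Finite {v : Place K F // 0 < v.ord (x - algebraMap K F c)} :=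
  (finite_zeros h (x - algebraMap K F c)).to_subtype

/-- the fibre of `x` over `∞` is finite. -/
theorem finite_poleFibre (h : IsRRField K F) (x : F) :
    Finite {v : Place K F // v.ord x < 0} :=
  (finite_poles h x).to_subtype

/-- ramification divisor of `x` over the finite value `c`: `v ↦ max (ord_v (x - c) - 1) 0`. -/
def ramAt (h : IsRRField K F) (x : F) (c : K) : Divisor K F :=
  Finsupp.onFinset (divOf h (x - algebraMap K F c)).support
    (fun v => max (v.ord (x - algebraMap K F c) - 1) 0) (by
      intro v hv
      rw [Finsupp.mem_support_iff, divOf_apply]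
      intro h0
      rw [h0] at hv
      simp at hv)

theorem ramAt_apply (h : IsRRField K F) (x : F) (c : K) (v : Place K F) :
    ramAt h x c v = max (v.ord (x - algebraMap K F c) - 1) 0 := rfl

/-- ramification divisor of `x` over `∞`: `v ↦ max (- ord_v x - 1) 0`. -/
def ramInf (h : IsRRField K F) (x : F) : Divisor K F :=
  Finsupp.onFinset (divOf h x).support (fun v => max (-v.ord x - 1) 0) (by
    intro v hv
    rw [Finsupp.mem_support_iff, divOf_apply]
    intro h0
    rw [h0] at hv
    simp at hv)

theorem ramInf_apply (h : IsRRField K F) (x : F) (v : Place K F) :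
    ramInf h x v = max (-v.ord x - 1) 0 := rfl

/-- support of a divisor given pointwise by a function vanishing where `ord f = 0`. -/
theorem fibreDeg_support_subset (h : IsRRField K F) (f : F) (D : Divisor K F)
    (hD : ∀ v : Place K F, v.ord f = 0 → D v = 0) : D.support ⊆ (divOf h f).support := by
  intro v hv
  rw [Finsupp.mem_support_iff] at hv ⊢
  rw [divOf_apply]
  exact fun h0 => hv (hD v h0)

/-- `deg (f)_0 - #zeros`, general form: `deg ramAt`-type sum for any `f`. -/
theorem fibreDeg_degree_zero_part (h : IsRRField K F) (f : F) (D : Divisor K F)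
    (hD : ∀ v : Place K F, D v = max (v.ord f - 1) 0) :
    Divisor.degree D = Divisor.degree (poleDiv h f) -
      (Nat.card {v : Place K F // 0 < v.ord f} : ℤ) := by
  classical
  set s := (divOf h f).support with hs
  have h1 : Divisor.degree D = ∑ v ∈ s, D v :=
    fibreDeg_degree_eq_sum_of_subset h D s (fibreDeg_support_subset h f D fun v hv => by
      rw [hD, hv]; simp)
  have h2 : Divisor.degree (poleDiv h f) = ∑ v ∈ s, poleDiv h f v :=
    fibreDeg_degree_eq_sum_of_subset h _ s (fibreDeg_support_subset h f _ fun v hv => by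
      rw [poleDiv_apply, hv]; simp)
  have h3 : (0 : ℤ) = ∑ v ∈ s, divOf h f v := by
    rw [← degree_eq_sum h, degree_divOf]
  have h4 : (Nat.card {v : Place K F // 0 < v.ord f} : ℤ) =
      ∑ v ∈ s, (if 0 < v.ord f then (1 : ℤ) else 0) := by
    rw [fibreDeg_card_eq_sum s (fun v => 0 < v.ord f) fun v hv => by
      rw [hs, Finsupp.mem_support_iff, divOf_apply]
      exact ne_of_gt hv]
    refine Finset.sum_congr rfl fun v _ => ?_
    congr
  rw [h1, h2, h4, ← Finset.sum_sub_distrib]
  have h5 : ∑ v ∈ s, D v = ∑ v ∈ s, D v - ∑ v ∈ s, divOf h f v := by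
    rw [← h3, sub_zero]
  rw [h5, ← Finset.sum_sub_distrib]
  refine Finset.sum_congr rfl fun v _ => ?_
  rw [hD, poleDiv_apply, divOf_apply]
  split_ifs with hv
  · rw [max_eq_left (by omega), max_eq_right (by omega)]
    ring
  · rw [max_eq_right (by omega), max_eq_left (by omega)]
    ring

/-- `deg ramAt = n - #fibre(c)`. -/
theorem degree_ramAt (h : IsRRField K F) {x : F} (hx : Transcendental K x)
    [FiniteDimensional K⟮x⟯ F] (c : K) :
    Divisor.degree (ramAt h x c) = (Module.finrank K⟮x⟯ F : ℤ) -
      (Nat.card {v : Place K F // 0 < v.ord (x - algebraMap K F c)} : ℤ) := by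
  rw [fibreDeg_degree_zero_part h (x - algebraMap K F c) (ramAt h x c) fun v => ramAt_apply h x c v,
    fibreDeg_poleDiv_sub_const, degree_poleDiv_eq_finrank h hx]

/-- `deg ramInf = n - #fibre(∞)`. -/
theorem degree_ramInf (h : IsRRField K F) {x : F} (hx : Transcendental K x)
    [FiniteDimensional K⟮x⟯ F] :
    Divisor.degree (ramInf h x) = (Module.finrank K⟮x⟯ F : ℤ) -
      (Nat.card {v : Place K F // v.ord x < 0} : ℤ) := by
  classical
  set s := (divOf h x).support with hs
  have h1 : Divisor.degree (ramInf h x) = ∑ v ∈ s, ramInf h x v :=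
    fibreDeg_degree_eq_sum_of_subset h _ s (fibreDeg_support_subset h x _ fun v hv => by
      rw [ramInf_apply, hv]; simp)
  have h2 : Divisor.degree (poleDiv h x) = ∑ v ∈ s, poleDiv h x v :=
    fibreDeg_degree_eq_sum_of_subset h _ s (fibreDeg_support_subset h x _ fun v hv => by
      rw [poleDiv_apply, hv]; simp)
  have h4 : (Nat.card {v : Place K F // v.ord x < 0} : ℤ) =
      ∑ v ∈ s, (if v.ord x < 0 then (1 : ℤ) else 0) := by
    rw [fibreDeg_card_eq_sum s (fun v => v.ord x < 0) fun v hv => by
      rw [hs, Finsupp.mem_support_iff, divOf_apply]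
      exact ne_of_lt hv]
    refine Finset.sum_congr rfl fun v _ => ?_
    congr
  rw [← degree_poleDiv_eq_finrank h hx, h1, h2, h4, ← Finset.sum_sub_distrib]
  refine Finset.sum_congr rfl fun v _ => ?_
  rw [ramInf_apply, poleDiv_apply]
  split_ifs with hv
  · rw [max_eq_left (by omega), max_eq_left (by omega)]
  · rw [max_eq_right (by omega), max_eq_right (by omega)]
    ring

/-- a fibre with `n` points is unramified. -/
theorem ord_eq_one_of_card_eq (h : IsRRField K F) {x : F} (hx : Transcendental K x)
    [FiniteDimensional K⟮x⟯ F] (c : K)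
    (hc : Nat.card {v : Place K F // 0 < v.ord (x - algebraMap K F c)} = Module.finrank K⟮x⟯ F)
    (v : Place K F) (hv : 0 < v.ord (x - algebraMap K F c)) :
    v.ord (x - algebraMap K F c) = 1 := by
  have h1 : Divisor.degree (ramAt h x c) = 0 := by
    rw [degree_ramAt h hx, hc, sub_self]
  have h2 : (0 : Divisor K F) ≤ ramAt h x c := by
    rw [Finsupp.le_def]
    intro w
    rw [ramAt_apply]
    exact le_max_right _ _
  have h3 := eq_zero_of_nonneg_of_degree_eq_zero h h2 h1
  have h4 : ramAt h x c v = 0 := by rw [h3]; rfl
  rw [ramAt_apply] at h4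
  have h5 := le_max_left (v.ord (x - algebraMap K F c) - 1) 0
  omega

end Fermat.Agent.RRHur
end
end MergeWrap_Lib_RR_Hurwitz_FibreDeg
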