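import Mathlib
import Fermat.Agent.MU.Lib.RR.Hurwitz.Fibres
import Fermat.Agent.MU.Lib.RedTr.Basic
import Fermat.Agent.MU.Lib.RedTr.FundIdK

section MergeWrap_Lib_RR_Hurwitz_Rel -- from Lib/RR/Hurwitz/Rel.lean

set_option autoImplicit false
set_option linter.style.haveILetI false
set_option linter.unusedSectionVars false

noncomputable section

open AlgebraicCurve IntermediateField Polynomial

namespace Fermat.Agent.RRRel

open Fermat.Agent.RR Fermat.Agent.RRHur Fermat.Agent.RedTr

variable {K E F : Type*} [Field K] [Field E] [Field F] [Algebra K E] [Algebra K F]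

section Fibre

variable (hE : IsRRField K E) (hF : IsRRField K F) (φ : E →ₐ[K] F)
  (hφ : φ.toRingHom.IsIntegral)

include hφ in
/-- zeros of `φ y` are the places over the zeros of `y`. -/
theorem ord_map_pos_iff (w : Place K F) (y : E) :
    0 < w.ord (φ y) ↔ 0 < (w.restrictAlong φ hφ).ord y := by
  rw [Place.ord_restrictAlong φ hφ]
  have he : (0 : ℤ) < (Place.ramificationIndexAlong φ w : ℤ) := by
    exact_mod_cast ramificationIndexAlong_pos φ hφ w
  constructor
  · intro h
    exact (pos_iff_pos_of_mul_pos h).mp he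
  · intro h
    exact mul_pos he h

include hE hF in
/-- a fibre of `F / E` has at most `e = [F : E]` places. -/
theorem card_fiberAlong_le [HasPrincipalDivisors K F] (hFI : FundamentalIdentityAlong K φ hφ)
    (v : Place K E) : ((Place.fiberAlong φ hφ v).card : ℤ) ≤ (finrankAlong K φ : ℤ) := by
  rw [← sum_ramificationIndexAlong hE hF φ hφ hFI v]
  have h1 : ((Place.fiberAlong φ hφ v).card : ℤ) = ∑ _w ∈ Place.fiberAlong φ hφ v, (1 : ℤ) := by
    simp
  rw [h1]
  apply Finset.sum_le_sum
  intro w _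
  exact_mod_cast ramificationIndexAlong_pos φ hφ w

include hE hF in
/-- **fibre count upstairs**: `#zeros(φ y) + (e - 1) #(T ∩ zeros y) ≤ e #zeros(y)` if the places
of `T` are totally ramified. -/
theorem card_zeros_map_le [HasPrincipalDivisors K F] (hFI : FundamentalIdentityAlong K φ hφ)
    (y : E) (T : Finset (Place K E)) (hT : ∀ v ∈ T, (Place.fiberAlong φ hφ v).card ≤ 1) :
    (Nat.card {w : Place K F // 0 < w.ord (φ y)} : ℤ) +
        ((finrankAlong K φ : ℤ) - 1) * ((T.filter fun v => 0 < v.ord y).card : ℤ) ≤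
      (finrankAlong K φ : ℤ) * (Nat.card {v : Place K E // 0 < v.ord y} : ℤ) := by
  classical
  set e : ℤ := (finrankAlong K φ : ℤ) with he
  set ZE : Finset (Place K E) := (finite_zeros hE y).toFinset with hZE
  set ZF : Finset (Place K F) := (finite_zeros hF (φ y)).toFinset with hZF
  have hcE : Nat.card {v : Place K E // 0 < v.ord y} = ZE.card :=
    Nat.subtype_card ZE fun v => by rw [hZE, Set.Finite.mem_toFinset]; rfl
  have hcF : Nat.card {w : Place K F // 0 < w.ord (φ y)} = ZF.card :=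
    Nat.subtype_card ZF fun v => by rw [hZF, Set.Finite.mem_toFinset]; rfl
  have hsub : ZF ⊆ ZE.biUnion fun v => Place.fiberAlong φ hφ v := by
    intro w hw
    rw [hZF, Set.Finite.mem_toFinset] at hw
    rw [Finset.mem_biUnion]
    refine ⟨w.restrictAlong φ hφ, ?_, Place.mem_fiberAlong.mpr rfl⟩
    rw [hZE, Set.Finite.mem_toFinset]
    exact (ord_map_pos_iff φ hφ w y).mp hw
  have h1 : (ZF.card : ℤ) ≤ ∑ v ∈ ZE, ((Place.fiberAlong φ hφ v).card : ℤ) := by
    have := (Finset.card_le_card hsub).trans Finset.card_biUnion_le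
    exact_mod_cast this
  have h2 : ∀ v ∈ ZE, ((Place.fiberAlong φ hφ v).card : ℤ) ≤ e - (e - 1) * (if v ∈ T then 1 else 0) := by
    intro v _
    split_ifs with hv
    · have := hT v hv
      have h3 : ((Place.fiberAlong φ hφ v).card : ℤ) ≤ 1 := by exact_mod_cast this
      linarith
    · have := card_fiberAlong_le hE hF φ hφ hFI v
      linarith
  have h3 : ∑ v ∈ ZE, (e - (e - 1) * (if v ∈ T then (1 : ℤ) else 0)) =
      e * ZE.card - (e - 1) * ((ZE.filter fun v => v ∈ T).card : ℤ) := by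
    rw [Finset.sum_sub_distrib, ← Finset.mul_sum, Finset.sum_const, Finset.card_filter]
    push_cast
    simp [mul_comm]
  have h4 : (ZE.filter fun v => v ∈ T) = T.filter fun v => 0 < v.ord y := by
    ext v
    simp only [Finset.mem_filter, hZE, Set.Finite.mem_toFinset, Set.mem_ofPred_eq]
    tauto
  rw [hcE, hcF]
  have h5 := h1.trans (Finset.sum_le_sum h2)
  rw [h3, h4] at h5
  linarith

include hE hF in
/-- the same for poles. -/
theorem card_poles_map_le [HasPrincipalDivisors K F] (hFI : FundamentalIdentityAlong K φ hφ)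
    (y : E) (T : Finset (Place K E)) (hT : ∀ v ∈ T, (Place.fiberAlong φ hφ v).card ≤ 1) :
    (Nat.card {w : Place K F // w.ord (φ y) < 0} : ℤ) +
        ((finrankAlong K φ : ℤ) - 1) * ((T.filter fun v => v.ord y < 0).card : ℤ) ≤
      (finrankAlong K φ : ℤ) * (Nat.card {v : Place K E // v.ord y < 0} : ℤ) := by
  have h := card_zeros_map_le hE hF φ hφ hFI y⁻¹ T hT
  have h1 : Nat.card {w : Place K F // 0 < w.ord (φ y⁻¹)} =
      Nat.card {w : Place K F // w.ord (φ y) < 0} := by
    apply Nat.card_congr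
    refine Equiv.subtypeEquivRight fun w => ?_
    rw [map_inv₀, Place.ord_inv]
    omega
  have h2 : Nat.card {v : Place K E // 0 < v.ord y⁻¹} =
      Nat.card {v : Place K E // v.ord y < 0} := by
    apply Nat.card_congr
    refine Equiv.subtypeEquivRight fun w => ?_
    rw [Place.ord_inv]
    omega
  have h3 : (T.filter fun v => 0 < v.ord y⁻¹) = T.filter fun v => v.ord y < 0 := by
    ext v
    simp only [Finset.mem_filter, Place.ord_inv]
    constructor
    · rintro ⟨h1, h2⟩; exact ⟨h1, by omega⟩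
    · rintro ⟨h1, h2⟩; exact ⟨h1, by omega⟩
  rw [h1, h2, h3] at h
  exact h

include hE hF in
/-- `1 ≤ [F : E]`. -/
theorem one_le_finrankAlong [HasPrincipalDivisors K F] (hFI : FundamentalIdentityAlong K φ hφ) :
    (1 : ℤ) ≤ (finrankAlong K φ : ℤ) := by
  obtain ⟨w⟩ := nonempty_place hF
  rw [← sum_ramificationIndexAlong hE hF φ hφ hFI (w.restrictAlong φ hφ)]
  have hw : w ∈ Place.fiberAlong φ hφ (w.restrictAlong φ hφ) := Place.mem_fiberAlong.mpr rfl
  have h1 : (1 : ℤ) ≤ (w.ramificationIndexAlong φ : ℤ) := by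
    exact_mod_cast ramificationIndexAlong_pos φ hφ w
  refine h1.trans ?_
  exact Finset.single_le_sum (f := fun w => (w.ramificationIndexAlong φ : ℤ))
    (fun w _ => Int.natCast_nonneg _) hw

end Fibre

section Main

variable [IsAlgClosed K]

/-- **the relative Riemann-Hurwitz lower bound.** -/
theorem hurwitz_lower_rel (hE : IsRRField K E) (hF : IsRRField K F) (φ : E →ₐ[K] F)
    (hφ : φ.toRingHom.IsIntegral) [HasPrincipalDivisors K F]
    (hFI : FundamentalIdentityAlong K φ hφ)
    {x : E} (hx : Transcendental K x) [FiniteDimensional K⟮x⟯ E]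
    [FiniteDimensional K⟮φ x⟯ F] [Algebra.IsSeparable K⟮φ x⟯ F]
    (S : Finset K)
    (hex : 2 * (genusFF K E : ℤ) - 2 + 2 * (Module.finrank K⟮x⟯ E : ℤ) ≤
      ∑ c ∈ S, ((Module.finrank K⟮x⟯ E : ℤ) -
        (Nat.card {v : Place K E // 0 < v.ord (x - algebraMap K E c)} : ℤ)) +
      ((Module.finrank K⟮x⟯ E : ℤ) - (Nat.card {v : Place K E // v.ord x < 0} : ℤ)))
    (T : Finset (Place K E)) (hT : ∀ v ∈ T, (Place.fiberAlong φ hφ v).card ≤ 1)
    (hTS : ∀ v ∈ T, v.ord x < 0 ∨ ∃ c ∈ S, 0 < v.ord (x - algebraMap K E c)) :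
    (finrankAlong K φ : ℤ) * (2 * (genusFF K E : ℤ) - 2) +
        ((finrankAlong K φ : ℤ) - 1) * (T.card : ℤ) ≤ 2 * (genusFF K F : ℤ) - 2 := by
  classical
  set e : ℤ := (finrankAlong K φ : ℤ) with he
  set n0 : ℤ := (Module.finrank K⟮x⟯ E : ℤ) with hn0
  set n1 : ℤ := (Module.finrank K⟮φ x⟯ F : ℤ) with hn1
  have he1 : 1 ≤ e := one_le_finrankAlong hE hF φ hφ hFI
  have hxF : Transcendental K (φ x) := by
    intro h
    exact hx ((isAlgebraic_algHom_iff φ φ.injective).mp h)
  have hn : n1 = e * n0 := by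
    have h1 := degree_poleDiv_map hE hF φ hφ hFI x
    rwa [degree_poleDiv_eq_finrank hF hxF, degree_poleDiv_eq_finrank hE hx] at h1
  have hlow := hurwitz_lower_fibres hF hxF S
  rw [← hn1] at hlow
  -- fibre by fibre
  have hz : ∀ c : K, (Nat.card {w : Place K F // 0 < w.ord (φ x - algebraMap K F c)} : ℤ) +
      (e - 1) * ((T.filter fun v => 0 < v.ord (x - algebraMap K E c)).card : ℤ) ≤
      e * (Nat.card {v : Place K E // 0 < v.ord (x - algebraMap K E c)} : ℤ) := by
    intro c
    have h1 := card_zeros_map_le hE hF φ hφ hFI (x - algebraMap K E c) T hT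
    rwa [map_sub, AlgHom.commutes] at h1
  have hp := card_poles_map_le hE hF φ hφ hFI x T hT
  rw [← he] at hp
  -- the places of `T`
  have hTcard : (T.card : ℤ) ≤ ∑ c ∈ S, ((T.filter fun v => 0 < v.ord (x - algebraMap K E c)).card : ℤ)
      + ((T.filter fun v => v.ord x < 0).card : ℤ) := by
    have hsub : T ⊆ (S.biUnion fun c => T.filter fun v => 0 < v.ord (x - algebraMap K E c)) ∪
        (T.filter fun v => v.ord x < 0) := by
      intro v hv
      rw [Finset.mem_union, Finset.mem_biUnion]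
      rcases hTS v hv with h1 | ⟨c, hc, h1⟩
      · right
        exact Finset.mem_filter.mpr ⟨hv, h1⟩
      · left
        exact ⟨c, hc, Finset.mem_filter.mpr ⟨hv, h1⟩⟩
    have h1 := (Finset.card_le_card hsub).trans (Finset.card_union_le _ _)
    have h2 := Finset.card_biUnion_le (s := S)
      (t := fun c => T.filter fun v => 0 < v.ord (x - algebraMap K E c))
    have h3 : T.card ≤ ∑ c ∈ S, (T.filter fun v => 0 < v.ord (x - algebraMap K E c)).card
        + (T.filter fun v => v.ord x < 0).card := by omega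
    exact_mod_cast h3
  -- the sums
  have hsum : ∑ c ∈ S, (e * (n0 -
      (Nat.card {v : Place K E // 0 < v.ord (x - algebraMap K E c)} : ℤ)) +
      (e - 1) * ((T.filter fun v => 0 < v.ord (x - algebraMap K E c)).card : ℤ)) ≤
      ∑ c ∈ S, (n1 - (Nat.card {w : Place K F // 0 < w.ord (φ x - algebraMap K F c)} : ℤ)) := by
    apply Finset.sum_le_sum
    intro c _
    have := hz c
    rw [hn]
    linarith
  rw [Finset.sum_add_distrib, ← Finset.mul_sum, ← Finset.mul_sum] at hsum
  have hex' := mul_le_mul_of_nonneg_left hex (le_trans zero_le_one he1)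
  have he0 : 0 ≤ e - 1 := by linarith
  have hT' := mul_le_mul_of_nonneg_left hTcard he0
  rw [hn] at hlow
  rw [hn] at hsum
  nlinarith [hsum, hex', hT', hp, hlow]

/-- the terms of the Riemann-Hurwitz sum are nonnegative. -/
theorem fibre_term_nonneg (hE : IsRRField K E) {x : E} (hx : Transcendental K x)
    [FiniteDimensional K⟮x⟯ E] (c : K) :
    (0 : ℤ) ≤ (Module.finrank K⟮x⟯ E : ℤ) -
      (Nat.card {v : Place K E // 0 < v.ord (x - algebraMap K E c)} : ℤ) := by
  rw [← degree_ramAt hE hx c]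
  apply degree_nonneg_of_nonneg hE
  rw [Finsupp.le_def]
  intro w
  rw [ramAt_apply]
  exact le_max_right _ _

/-- the Riemann-Hurwitz upper bound over `S ∪ {∞}` implies the one over any `S' ⊇ S`. -/
theorem hurwitz_upper_mono (hE : IsRRField K E) {x : E} (hx : Transcendental K x)
    [FiniteDimensional K⟮x⟯ E] {S S' : Finset K} (hSS : S ⊆ S') {B : ℤ}
    (hex : B ≤
      ∑ c ∈ S, ((Module.finrank K⟮x⟯ E : ℤ) -
        (Nat.card {v : Place K E // 0 < v.ord (x - algebraMap K E c)} : ℤ)) +
      ((Module.finrank K⟮x⟯ E : ℤ) - (Nat.card {v : Place K E // v.ord x < 0} : ℤ))) :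
    B ≤
      ∑ c ∈ S', ((Module.finrank K⟮x⟯ E : ℤ) -
        (Nat.card {v : Place K E // 0 < v.ord (x - algebraMap K E c)} : ℤ)) +
      ((Module.finrank K⟮x⟯ E : ℤ) - (Nat.card {v : Place K E // v.ord x < 0} : ℤ)) := by
  have h := Finset.sum_le_sum_of_subset_of_nonneg hSS
    (f := fun c => (Module.finrank K⟮x⟯ E : ℤ) -
        (Nat.card {v : Place K E // 0 < v.ord (x - algebraMap K E c)} : ℤ))
    (fun c _ _ => fibre_term_nonneg hE hx c)
  linarith

/-- **the relative Riemann-Hurwitz lower bound**, user form: no fundamental identity to supply,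
no condition on the position of `T`; "totally ramified" = at most one place above. -/
theorem hurwitz_lower_rel' (hE : IsRRField K E) (hF : IsRRField K F) (φ : E →ₐ[K] F)
    (hφ : φ.toRingHom.IsIntegral)
    {x : E} (hx : Transcendental K x) [FiniteDimensional K⟮x⟯ E]
    [FiniteDimensional K⟮φ x⟯ F] [Algebra.IsSeparable K⟮φ x⟯ F]
    (S : Finset K)
    (hex : 2 * (genusFF K E : ℤ) - 2 + 2 * (Module.finrank K⟮x⟯ E : ℤ) ≤
      ∑ c ∈ S, ((Module.finrank K⟮x⟯ E : ℤ) -
        (Nat.card {v : Place K E // 0 < v.ord (x - algebraMap K E c)} : ℤ)) +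
      ((Module.finrank K⟮x⟯ E : ℤ) - (Nat.card {v : Place K E // v.ord x < 0} : ℤ)))
    (T : Finset (Place K E))
    (hT : ∀ v ∈ T, ∀ w w' : Place K F, w.restrictAlong φ hφ = v → w'.restrictAlong φ hφ = v →
      w = w') :
    (finrankAlong K φ : ℤ) * (2 * (genusFF K E : ℤ) - 2) +
        ((finrankAlong K φ : ℤ) - 1) * (T.card : ℤ) ≤ 2 * (genusFF K F : ℤ) - 2 := by
  classical
  haveI := hasPD hF
  have hFI := fundIdK hE hF φ hφ
  have hT' : ∀ v ∈ T, (Place.fiberAlong φ hφ v).card ≤ 1 := by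
    intro v hv
    rw [Finset.card_le_one]
    intro w hw w' hw'
    exact hT v hv w w' (Place.mem_fiberAlong.mp hw) (Place.mem_fiberAlong.mp hw')
  -- the values of `x` at the places of `T`
  have hval : ∀ v : Place K E, ∃ c : K, 0 ≤ v.ord x → 0 < v.ord (x - algebraMap K E c) := by
    intro v
    by_cases hv : 0 ≤ v.ord x
    · obtain ⟨c, hc⟩ := exists_const_sub hE v hv
      refine ⟨c, fun _ => ?_⟩
      rcases hc with hc | hc
      · exact absurd (hc ▸ isAlgebraic_algebraMap c) hx
      · exact hc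
    · exact ⟨0, fun h => absurd h hv⟩
  choose val hvalspec using hval
  set S' : Finset K := S ∪ T.image val with hS'
  have hex' := hurwitz_upper_mono hE hx (Finset.subset_union_left : S ⊆ S') hex
  refine hurwitz_lower_rel hE hF φ hφ hFI hx S' hex' T hT' ?_
  intro v hv
  rcases lt_or_ge (v.ord x) 0 with h0 | h0
  · exact Or.inl h0
  · right
    exact ⟨val v, Finset.mem_union_right _ (Finset.mem_image_of_mem val hv), hvalspec v h0⟩

/-- **genus form**: `g(F) ≥ 1 + e (g(E) - 1) + (e - 1) |T| / 2`, stated without division. -/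
theorem two_genus_ge_of_totally_ramified (hE : IsRRField K E) (hF : IsRRField K F)
    (φ : E →ₐ[K] F) (hφ : φ.toRingHom.IsIntegral)
    {x : E} (hx : Transcendental K x) [FiniteDimensional K⟮x⟯ E]
    [FiniteDimensional K⟮φ x⟯ F] [Algebra.IsSeparable K⟮φ x⟯ F]
    (S : Finset K)
    (hex : 2 * (genusFF K E : ℤ) - 2 + 2 * (Module.finrank K⟮x⟯ E : ℤ) ≤
      ∑ c ∈ S, ((Module.finrank K⟮x⟯ E : ℤ) -
        (Nat.card {v : Place K E // 0 < v.ord (x - algebraMap K E c)} : ℤ)) +
      ((Module.finrank K⟮x⟯ E : ℤ) - (Nat.card {v : Place K E // v.ord x < 0} : ℤ)))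
    (T : Finset (Place K E))
    (hT : ∀ v ∈ T, ∀ w w' : Place K F, w.restrictAlong φ hφ = v → w'.restrictAlong φ hφ = v →
      w = w') :
    2 + 2 * (finrankAlong K φ : ℤ) * ((genusFF K E : ℤ) - 1) +
        ((finrankAlong K φ : ℤ) - 1) * (T.card : ℤ) ≤ 2 * (genusFF K F : ℤ) := by
  have h := hurwitz_lower_rel' hE hF φ hφ hx S hex T hT
  linarith

end Main

end Fermat.Agent.RRRel
end
end MergeWrap_Lib_RR_Hurwitz_Rel
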